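import Fermat.Agent.S41.E.MainOf
import Fermat.Agent.LP.Gal.ECRepB
import Fermat.Agent.EL.Export
import Fermat.Agent.GR.H.Density
import Fermat.Agent.GR.G.Main

/-!
# S41-E, file `Main`: **Theorem E** (Galois side of level raising)

For an elliptic curve `E/ℚ` with `E[p]` irreducible (`p` odd), an integral model `W`, a prime `q`, integers `c₀, m ≥ 1` and a finite set `Sg` there is
a prime `ℓ ∉ Sg` of good reduction with `ℓ ≡ 1 mod c₀`, `p ∣ ord_ℓ(q^(2m))` and `a_ℓ(W) ≢ 2 mod p`.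
-/

set_option autoImplicit false

open WeierstrassCurve WeierstrassCurve.Affine WeierstrassCurve.Affine.Point

namespace Fermat.Agent.S41.E

open Fermat.Agent.LP.Gal

theorem Main_dens : Fermat.Agent.GR.H.FrobeniusDensity :=
  Fermat.Agent.GR.H.frobeniusDensity_of_open Fermat.Agent.GR.G.exists_frobenius_pow_mem

theorem Main_X1 : X1 := fun W hΔ _ hn => Fermat.Agent.EL.card_torsionBy W hΔ hn

theorem Main_X3 : X3 := fun W _ _ _ hℓ h5 hgood hn _ hA _ hσ x =>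
  Fermat.Agent.EL.frobenius_smul_eq W hℓ h5 hgood hn hA hσ x

theorem Main_X4 : X4 := fun E E' C h => Fermat.Agent.EL.exists_equivariant_addEquiv E E' C h

theorem exists_prime_ap_ne_two (E : WeierstrassCurve ℚ) [E.IsElliptic] {W : WeierstrassCurve ℤ} (hW : W.IsIntegralModelOf E) {p q : ℕ} (hp : p.Prime) (hp2 : p ≠ 2) (hq : q.Prime) (hqp : q ≠ p) (hirr : GaloisRepIsIrreducible (K := AlgebraicClosure ℚ) ℚ E p) (c₀ m : ℕ) (hc₀ : 0 < c₀) (hm : 0 < m) (Sg : Finset ℕ) : ∃ ℓ : ℕ, ℓ.Prime ∧ ℓ ∉ Sg ∧ W.IsGoodPrimeFor ℓ ∧ ((ℓ : ℕ) : ZMod c₀) = 1 ∧ p ∣ orderOf ((q : ZMod ℓ) ^ (2 * m)) ∧ ((W.apOfModel ℓ : ℤ) : ZMod p) ≠ 2 :=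
  exists_prime_ap_ne_two_of Main_dens Main_X1 Main_X3 Main_X4
    (fun E' _ _ hfin => hasLevel_rhoE E' hfin) E hW hp hp2 hq hqp hirr c₀ m hc₀ hm Sg

end Fermat.Agent.S41.E
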