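import Fermat.Agent.LP.Gal.Defs

/-!
# S41-E, file `Abs`: the abstract group theory on a plane

`ρ : G → GL(V)` irreducible, `dim V = 2`.
* `abs_trivial`: `H` normal, `T` a subgroup, `H ⊄ T`, every element of `H \ T` is unipotent (and has its square outside `T`):
  then `H` acts trivially.
* `abs_scalar`: a central involution is `± 1`.
-/

set_option autoImplicit false

namespace Fermat.Agent.S41.E

open Fermat.Agent.LP.Gal (Irr)

variable {k G V : Type*} [Field k] [Group G] [AddCommGroup V] [Module k V]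

/-- the ring identity behind `Abs_anticomm`. -/
theorem Abs_ring {A : Type*} [Ring A] (M N : A) (hM : M * M = 0) (hN : N * N = 0)
    (hZ : ((1 + M) * (1 + N) - 1) * ((1 + M) * (1 + N) - 1) = 0) : M * N + N * M = 0 := by
  have hWZ : (1 - N) * (1 - M) * ((1 + M) * (1 + N)) = 1 := by
    calc (1 - N) * (1 - M) * ((1 + M) * (1 + N))
        = (1 - N) * (1 - M * M) * (1 + N) := by noncomm_ring
      _ = 1 - N * N := by rw [hM]; noncomm_ring
      _ = 1 := by rw [hN, sub_zero]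
  have hZ2 : (1 + M) * (1 + N) * (1 + 1 - (1 + M) * (1 + N)) = 1 := by
    calc (1 + M) * (1 + N) * (1 + 1 - (1 + M) * (1 + N))
        = 1 - ((1 + M) * (1 + N) - 1) * ((1 + M) * (1 + N) - 1) := by noncomm_ring
      _ = 1 := by rw [hZ, sub_zero]
  have hW : 1 + 1 - (1 + M) * (1 + N) = (1 - N) * (1 - M) := by
    calc 1 + 1 - (1 + M) * (1 + N)
        = (1 - N) * (1 - M) * ((1 + M) * (1 + N)) * (1 + 1 - (1 + M) * (1 + N)) := by
          rw [hWZ, one_mul]
      _ = (1 - N) * (1 - M) * ((1 + M) * (1 + N) * (1 + 1 - (1 + M) * (1 + N))) := by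
          rw [mul_assoc]
      _ = (1 - N) * (1 - M) := by rw [hZ2, mul_one]
  calc M * N + N * M = (1 - N) * (1 - M) - (1 + 1 - (1 + M) * (1 + N)) := by noncomm_ring
    _ = 0 := by rw [hW, sub_self]

/-- PROOF. `x = 1 + M`, `y = 1 + N`, `M² = N² = 0`, so `x⁻¹ = 2 - x`, `y⁻¹ = 2 - y`, and `(xy)⁻¹ = 2 - xy` because `xy` is unipotent;
`(xy)⁻¹ = y⁻¹ x⁻¹` gives `MN + NM = 0`. -/
theorem Abs_anticomm (ρ : G →* Module.End k V) (g h : G)
    (hg : (ρ g - 1) * (ρ g - 1) = 0) (hh : (ρ h - 1) * (ρ h - 1) = 0)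
    (hgh : (ρ (g * h) - 1) * (ρ (g * h) - 1) = 0) :
    (ρ g - 1) * (ρ h - 1) + (ρ h - 1) * (ρ g - 1) = 0 := by
  apply Abs_ring _ _ hg hh
  rw [add_sub_cancel, add_sub_cancel, ← map_mul]
  exact hgh

/-- PROOF. `N e = 0`, `e = N v₀ ≠ 0`, `ker N` is a line (`N ≠ 0`, `N² = 0`, `dim V = 2`) so `ker N = k e`; `N (M e) = - M (N e) = 0`, so `M e = c e`,
`0 = M² e = c² e`, `c = 0`. -/
theorem Abs_fix (hV : Module.finrank k V = 2) (M N : Module.End k V) (hM : M * M = 0) (hN : N * N = 0)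
    (hMN : M * N + N * M = 0) (v₀ : V) (hv₀ : N v₀ ≠ 0) : M (N v₀) = 0 := by
  have hfd : FiniteDimensional k V := Module.finite_of_finrank_pos (by omega)
  have hNe : N (N v₀) = 0 := by
    have h1 := congrArg (fun f : Module.End k V => f v₀) hN
    exact h1
  have hrk := LinearMap.finrank_range_add_finrank_ker N
  rw [hV] at hrk
  have hker : 0 < Module.finrank k (LinearMap.ker N) := by
    rw [Module.finrank_pos_iff_exists_ne_zero]
    exact ⟨⟨N v₀, hNe⟩, fun h => hv₀ (congrArg Subtype.val h)⟩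
  have hrange : 0 < Module.finrank k (LinearMap.range N) := by
    rw [Module.finrank_pos_iff_exists_ne_zero]
    exact ⟨⟨N v₀, ⟨v₀, rfl⟩⟩, fun h => hv₀ (congrArg Subtype.val h)⟩
  have hker1 : Module.finrank k (LinearMap.ker N) = 1 := by omega
  have hNM : N (M (N v₀)) = 0 := by
    have h1 := congrArg (fun f : Module.End k V => f (N v₀)) hMN
    have h2 : M (N (N v₀)) + N (M (N v₀)) = 0 := h1
    rw [hNe, map_zero, zero_add] at h2
    exact h2
  obtain ⟨c, hc⟩ := (finrank_eq_one_iff_of_nonzero' (⟨N v₀, hNe⟩ : LinearMap.ker N)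
    (fun h => hv₀ (congrArg Subtype.val h))).1 hker1 ⟨M (N v₀), hNM⟩
  have hc' : c • N v₀ = M (N v₀) := congrArg Subtype.val hc
  have hMM : M (M (N v₀)) = 0 := by
    have h1 := congrArg (fun f : Module.End k V => f (N v₀)) hM
    exact h1
  rw [← hc', map_smul, ← hc', smul_smul] at hMM
  have hc0 : c = 0 := by
    rcases smul_eq_zero.1 hMM with h | h
    · exact mul_self_eq_zero.1 h
    · exact absurd h hv₀
  rw [← hc', hc0, zero_smul]

/-- PROOF. If `ρ g = 1` for all `g ∈ H \ T` then `ρ h = ρ (h g₀) ρ(g₀)⁻¹ = 1` for `h ∈ H ∩ T`.  Otherwise take `g₁ ∈ H \ T`, `N = ρ g₁ - 1 ≠ 0`, `e = N v₀ ≠ 0`.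
For `g ∈ H \ T` one of `g g₁`, `g g₁⁻¹` is outside `T` (else `g₁² ∈ T`), `ρ g₁⁻¹ - 1 = - N`; `Abs_anticomm` + `Abs_fix`: `ρ g e = e`.
Then all of `H` fixes `e` (`h = (h g₁) g₁⁻¹`).  The space of `H`-fixed vectors is stable (`H` normal), nonzero, so it is `⊤`. -/
theorem abs_trivial (hV : Module.finrank k V = 2) (ρ : G →* Module.End k V) (hirr : Irr ρ)
    (H T : Subgroup G) (hH : H.Normal) (g₀ : G) (hg₀ : g₀ ∈ H) (hg₀T : g₀ ∉ T)
    (hsq : ∀ g ∈ H, g ∉ T → g * g ∉ T)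
    (hU : ∀ g ∈ H, g ∉ T → (ρ g - 1) * (ρ g - 1) = 0) :
    ∀ h ∈ H, ρ h = 1 := by
  by_cases hall : ∀ g ∈ H, g ∉ T → ρ g = 1
  · intro h hh
    by_cases hhT : h ∈ T
    · have h1 : h * g₀ ∉ T := by
        intro h2
        apply hg₀T
        have h3 : g₀ = h⁻¹ * (h * g₀) := by group
        rw [h3]
        exact T.mul_mem (T.inv_mem hhT) h2
      have h2 := hall (h * g₀) (H.mul_mem hh hg₀) h1
      rw [map_mul, hall g₀ hg₀ hg₀T, mul_one] at h2
      exact h2
    · exact hall h hh hhT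
  · push Not at hall
    obtain ⟨g₁, hg₁, hg₁T, hne⟩ := hall
    have hN0 : ρ g₁ - 1 ≠ 0 := sub_ne_zero.2 hne
    obtain ⟨v₀, hv₀⟩ : ∃ v₀, (ρ g₁ - 1) v₀ ≠ 0 := by
      by_contra hcon
      push Not at hcon
      exact hN0 (LinearMap.ext hcon)
    have hNN := hU g₁ hg₁ hg₁T
    have hinvT : g₁⁻¹ ∉ T := fun h => hg₁T (by simpa using T.inv_mem h)
    have hinvH : g₁⁻¹ ∈ H := H.inv_mem hg₁
    -- `ρ g₁⁻¹ - 1 = - N`
    have hinv : ρ g₁⁻¹ - 1 = -(ρ g₁ - 1) := by
      have h1 : ρ g₁⁻¹ * ρ g₁ = 1 := by rw [← map_mul, inv_mul_cancel, map_one]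
      have h2 : ρ g₁⁻¹ = ρ g₁⁻¹ * ρ g₁ * (1 + 1 - ρ g₁) + ρ g₁⁻¹ * ((ρ g₁ - 1) * (ρ g₁ - 1)) := by
        noncomm_ring
      rw [h1, hNN, mul_zero, add_zero, one_mul] at h2
      rw [h2]
      noncomm_ring
    -- elements of `H \ T` fix `e`
    have hA : ∀ g ∈ H, g ∉ T → (ρ g - 1) ((ρ g₁ - 1) v₀) = 0 := by
      intro g hg hgT
      have hanti : (ρ g - 1) * (ρ g₁ - 1) + (ρ g₁ - 1) * (ρ g - 1) = 0 := by
        by_cases h1 : g * g₁ ∈ T
        · have h2 : g * g₁⁻¹ ∉ T := by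
            intro h2
            apply hsq g₁ hg₁ hg₁T
            have h3 : g₁ * g₁ = (g * g₁⁻¹)⁻¹ * (g * g₁) := by group
            rw [h3]
            exact T.mul_mem (T.inv_mem h2) h1
          have h3 := Abs_anticomm ρ g g₁⁻¹ (hU g hg hgT) (hU _ hinvH hinvT)
            (hU _ (H.mul_mem hg hinvH) h2)
          rw [hinv, mul_neg, neg_mul, ← neg_add, neg_eq_zero] at h3
          exact h3
        · exact Abs_anticomm ρ g g₁ (hU g hg hgT) hNN (hU _ (H.mul_mem hg hg₁) h1)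
      exact Abs_fix hV _ _ (hU g hg hgT) hNN hanti v₀ hv₀
    have hA' : ∀ g ∈ H, g ∉ T → ρ g ((ρ g₁ - 1) v₀) = (ρ g₁ - 1) v₀ := by
      intro g hg hgT
      have h1 := hA g hg hgT
      rw [LinearMap.sub_apply, Module.End.one_apply, sub_eq_zero] at h1
      exact h1
    have hB : ∀ h ∈ H, ρ h ((ρ g₁ - 1) v₀) = (ρ g₁ - 1) v₀ := by
      intro h hh
      by_cases hhT : h ∈ T
      · have h1 : h * g₁ ∉ T := by
          intro h2
          apply hg₁T
          have h3 : g₁ = h⁻¹ * (h * g₁) := by group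
          rw [h3]
          exact T.mul_mem (T.inv_mem hhT) h2
        have h2 := hA' (h * g₁) (H.mul_mem hh hg₁) h1
        rw [map_mul, Module.End.mul_apply, hA' g₁ hg₁ hg₁T] at h2
        exact h2
      · exact hA' h hh hhT
    -- the space of fixed vectors
    let W : Submodule k V :=
      { carrier := {v | ∀ h ∈ H, ρ h v = v}
        add_mem' := fun {a b} ha hb h hh => by rw [map_add, ha h hh, hb h hh]
        zero_mem' := fun h _ => map_zero _
        smul_mem' := fun c v hv h hh => by rw [map_smul, hv h hh] }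
    have hWst : ∀ g : G, ∀ x ∈ W, ρ g x ∈ W := by
      intro g x hx h hh
      have h1 : h * g = g * (g⁻¹ * h * g) := by group
      have h2 : g⁻¹ * h * g ∈ H := by
        have h3 := hH.conj_mem h hh g⁻¹
        rwa [inv_inv] at h3
      rw [← Module.End.mul_apply, ← map_mul, h1, map_mul, Module.End.mul_apply, hx _ h2]
    rcases hirr W hWst with hW | hW
    · exfalso
      have h1 : (ρ g₁ - 1) v₀ ∈ W := hB
      rw [hW, Submodule.mem_bot] at h1
      exact hv₀ h1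
    · intro h hh
      refine LinearMap.ext fun v => ?_
      have h1 : v ∈ W := by rw [hW]; exact Submodule.mem_top
      exact h1 h hh

/-- PROOF. `ker (ρ c - 1)` is stable, so `⊤` (then `ρ c = 1`) or `⊥` (then `(ρ c - 1)(ρ c + 1) = 0` gives `ρ c = -1`). -/
theorem abs_scalar (ρ : G →* Module.End k V) (hirr : Irr ρ) (c : G) (hc : ρ c * ρ c = 1)
    (hcomm : ∀ g, ρ c * ρ g = ρ g * ρ c) : ρ c = 1 ∨ ρ c = -1 := by
  have hst : ∀ g : G, ∀ x ∈ LinearMap.ker (ρ c - 1), ρ g x ∈ LinearMap.ker (ρ c - 1) := by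
    intro g x hx
    rw [LinearMap.mem_ker, LinearMap.sub_apply, Module.End.one_apply, sub_eq_zero] at hx ⊢
    rw [← Module.End.mul_apply, hcomm g, Module.End.mul_apply, hx]
  rcases hirr _ hst with h | h
  · right
    refine LinearMap.ext fun v => ?_
    have h1 : (ρ c + 1) v ∈ LinearMap.ker (ρ c - 1) := by
      rw [LinearMap.mem_ker, ← Module.End.mul_apply]
      have h2 : (ρ c - 1) * (ρ c + 1) = ρ c * ρ c - 1 := by noncomm_ring
      rw [h2, hc, sub_self]
      rfl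
    rw [h, Submodule.mem_bot, LinearMap.add_apply, Module.End.one_apply] at h1
    rw [LinearMap.neg_apply, Module.End.one_apply]
    exact eq_neg_of_add_eq_zero_left h1
  · left
    refine LinearMap.ext fun v => ?_
    have h1 : v ∈ LinearMap.ker (ρ c - 1) := by rw [h]; exact Submodule.mem_top
    rw [LinearMap.mem_ker, LinearMap.sub_apply, sub_eq_zero] at h1
    exact h1

/-- `(x - 1)² = 0 ⇒ (x^n - 1)² = 0`  (`x^n - 1 = (x - 1)(1 + x + ⋯)`, everything commutes). -/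
theorem pow_unipotent {A : Type*} [Ring A] (x : A) (h : (x - 1) * (x - 1) = 0) (n : ℕ) :
    (x ^ n - 1) * (x ^ n - 1) = 0 := by
  have h1 := mul_geom_sum x n
  have h2 := geom_sum_mul x n
  calc (x ^ n - 1) * (x ^ n - 1)
      = ((∑ i ∈ Finset.range n, x ^ i) * (x - 1)) * ((x - 1) * ∑ i ∈ Finset.range n, x ^ i) := by
        rw [h1, h2]
    _ = (∑ i ∈ Finset.range n, x ^ i) * ((x - 1) * (x - 1)) * ∑ i ∈ Finset.range n, x ^ i := by
        noncomm_ring
    _ = 0 := by rw [h, mul_zero, zero_mul]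

end Fermat.Agent.S41.E
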