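import Mathlib

/-!
# S41-E, file `Arith`: elementary arithmetic in `(ℤ/ℓ)ˣ`
-/

set_option autoImplicit false

namespace Fermat.Agent.S41.E

/-- PROOF. `x = q^(2m)`, `k = orderOf x`.  `x^(p t) = q^(ℓ-1) = 1` (`ZMod.pow_card_sub_one_eq_one`), so `k ∣ p t`; if `p ∤ k` then `k ∣ t`, `x^t = 1`. -/
theorem dvd_orderOf_of_pow_ne_one {p q ℓ m t : ℕ} (hp : p.Prime) (hℓ : ℓ.Prime) (hqℓ : ¬ ℓ ∣ q)
    (ht : ℓ = 2 * m * p * t + 1) (hne : (q : ZMod ℓ) ^ (2 * m * t) ≠ 1) :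
    p ∣ orderOf ((q : ZMod ℓ) ^ (2 * m)) := by
  have : Fact ℓ.Prime := ⟨hℓ⟩
  by_contra hnd
  have hq0 : (q : ZMod ℓ) ≠ 0 := by
    rwa [Ne, ZMod.natCast_eq_zero_iff]
  have h1 : ((q : ZMod ℓ) ^ (2 * m)) ^ (p * t) = 1 := by
    have h := ZMod.pow_card_sub_one_eq_one hq0
    have e : ℓ - 1 = 2 * m * (p * t) := by
      rw [ht, Nat.add_sub_cancel]
      ring
    rw [e, pow_mul] at h
    exact h
  have h2 : orderOf ((q : ZMod ℓ) ^ (2 * m)) ∣ p * t := orderOf_dvd_of_pow_eq_one h1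
  have hcop : Nat.Coprime (orderOf ((q : ZMod ℓ) ^ (2 * m))) p :=
    ((Nat.Prime.coprime_iff_not_dvd hp).2 hnd).symm
  have h3 : orderOf ((q : ZMod ℓ) ^ (2 * m)) ∣ t := hcop.dvd_of_dvd_mul_left h2
  apply hne
  rw [pow_mul]
  exact orderOf_dvd_iff_pow_eq_one.1 h3

/-- `q` prime is not a `p`-th power in `ℚ` (`padicValRat`, or numerators and denominators). -/
theorem rat_pow_ne_prime {p q : ℕ} (hp : p.Prime) (hq : q.Prime) (b : ℚ) : b ^ p ≠ (q : ℚ) := by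
  have : Fact q.Prime := ⟨hq⟩
  intro h
  have hb : b ≠ 0 := by
    rintro rfl
    rw [zero_pow hp.ne_zero] at h
    exact hq.ne_zero (by exact_mod_cast h.symm)
  have h1 := congrArg (padicValRat q) h
  rw [padicValRat.pow, padicValRat.self hq.one_lt] at h1
  have h2 : (p : ℤ) ∣ 1 := ⟨_, h1.symm⟩
  have h3 : p ∣ 1 := by exact_mod_cast h2
  exact hp.one_lt.ne' (Nat.dvd_one.1 h3)

end Fermat.Agent.S41.E
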