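import Fermat.Agent.GR.H.Cyc

/-!
# S41-E, file `Frob`: Frobenius elements and `θ = q^(1/p)`
-/

set_option autoImplicit false

namespace Fermat.Agent.S41.E

open Fermat.Agent.GR.H (GQ)

local notation "Qbar" => AlgebraicClosure ℚ

open Fermat.Agent.Lib.Frobenius Fermat.Agent.GR.H in
/-- PROOF. `τ θ ≡ θ^ℓ = θ (θ^p)^t = θ q^t ≡ θ mod 𝔪_A` (`Cyc_frobenius_sub_pow_mem`; `ℓ ∣ q^t - 1` in `ℤ` and `ℓ ∈ 𝔪_A`); `u = τ θ / θ` satisfies `u^p = 1` and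
`(u - 1) θ ∈ 𝔪_A`; `θ` is a unit of `A` (`θ^p = q`, `Lib.Frobenius.intCast_not_mem_nonunits`), so `u - 1 ∈ 𝔪_A` and `u = 1` (`Cyc_eq_of_sub_mem`, `ℓ ∤ p`). -/
theorem frob_fix_root (A : ValuationSubring Qbar) {ℓ : ℕ} (hℓ : ℓ.Prime) (hA : A.LiesOverPrime ℓ)
    (τ : GQ) (hτ : A.IsFrobeniusAt τ ℓ) {p q t : ℕ} (hp : p.Prime) (hℓp : ℓ ≠ p) (hℓq : ¬ ℓ ∣ q)
    {θ : Qbar} (hθ : θ ^ p = q) (ht : ℓ = p * t + 1) (h1 : (q : ZMod ℓ) ^ t = 1) : τ θ = θ := by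
  have hθA : θ ∈ A := isIntegral_mem A
    (IsIntegral.of_pow hp.pos (by rw [hθ]; exact isIntegral_algebraMap (R := ℤ) (x := (q : ℤ)) |> fun h => by simpa using h))
  have hq0 : (q : Qbar) ≠ 0 := by
    intro h
    have : q = 0 := by exact_mod_cast h
    exact hℓq (this ▸ dvd_zero _)
  have hθ0 : θ ≠ 0 := by
    rintro rfl
    rw [zero_pow hp.ne_zero] at hθ
    exact hq0 hθ.symm
  have hθu : θ ∉ A.nonunits := by
    intro h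
    have h2 : θ * θ ^ (p - 1) ∈ A.nonunits := nonunits_mul A h (pow_mem hθA _)
    rw [← pow_succ', Nat.sub_add_cancel hp.pos, hθ] at h2
    refine intCast_not_mem_nonunits A hℓ hA (a := (q : ℤ)) ?_ (by simpa using h2)
    exact_mod_cast hℓq
  have hθinv : θ⁻¹ ∈ A := inv_mem_of_not_mem_nonunits A hθA hθu
  -- `q^t - 1 ∈ 𝔪`
  have hqt : (q : Qbar) ^ t - 1 ∈ A.nonunits := by
    have h2 : (((q : ℤ) ^ t - 1 : ℤ) : ZMod ℓ) = 0 := by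
      push_cast
      rw [h1, sub_self]
    rw [ZMod.intCast_zmod_eq_zero_iff_dvd] at h2
    obtain ⟨s, hs⟩ := h2
    have h3 : (q : Qbar) ^ t - 1 = (ℓ : Qbar) * (s : Qbar) := by
      have := congrArg (Int.cast : ℤ → Qbar) hs
      push_cast at this
      exact this
    rw [h3]
    exact nonunits_mul A hA (intCast_mem _ s)
  have hpow : θ ^ ℓ = θ + (((q : Qbar) ^ t - 1) * θ) := by
    rw [ht, pow_succ, pow_mul, hθ]
    ring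
  have hd : τ θ - θ ∈ A.nonunits := by
    have h2 := Cyc_frobenius_sub_pow_mem A ℓ τ hτ θ hθA
    have h3 : τ θ - θ = (τ θ - θ ^ ℓ) + (((q : Qbar) ^ t - 1) * θ) := by
      rw [hpow]
      ring
    rw [h3]
    exact nonunits_add A h2 (nonunits_mul A hqt hθA)
  have hu : (τ θ * θ⁻¹) ^ p = 1 := by
    rw [mul_pow, ← map_pow, hθ, map_natCast, inv_pow, hθ, mul_inv_cancel₀ hq0]
  have hu1 : τ θ * θ⁻¹ - 1 ∈ A.nonunits := by
    have : τ θ * θ⁻¹ - 1 = (τ θ - θ) * θ⁻¹ := by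
      rw [sub_mul, mul_inv_cancel₀ hθ0]
    rw [this]
    exact nonunits_mul A hd hθinv
  have hℓp' : ¬ ℓ ∣ p := fun h => hℓp ((Nat.prime_dvd_prime_iff_eq hℓ hp).1 h)
  have h5 := Cyc_eq_of_sub_mem A ℓ hℓ hA p hℓp' _ 1 hu (one_pow p) hu1
  rw [mul_inv_eq_one₀ hθ0] at h5
  exact h5

open Fermat.Agent.GR.H in
/-- PROOF. `τ ζ = ζ^ℓ` (`frobenius_rootOfUnity`), `ζ^ℓ = ζ^1` gives `ℓ ≡ 1 mod n` (`IsPrimitiveRoot.pow_inj` / `pow_eq_pow_iff_modEq`). -/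
theorem frob_fix_zeta (A : ValuationSubring Qbar) {ℓ : ℕ} (hℓ : ℓ.Prime) (hA : A.LiesOverPrime ℓ)
    (τ : GQ) (hτ : A.IsFrobeniusAt τ ℓ) {n : ℕ} (hn : ¬ ℓ ∣ n) {ζ : Qbar} (hζ : IsPrimitiveRoot ζ n)
    (hfix : τ ζ = ζ) : ∃ t : ℕ, ℓ = n * t + 1 := by
  have h1 := frobenius_rootOfUnity A ℓ hℓ hA τ hτ n hn ζ hζ.pow_eq_one
  rw [hfix] at h1
  have hζ0 : ζ ≠ 0 := by
    rintro rfl
    have hn0 : n ≠ 0 := by rintro rfl; exact hn (dvd_zero _)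
    have := hζ.pow_eq_one
    rw [zero_pow hn0] at this
    exact zero_ne_one this
  have h2 : ζ ^ (ℓ - 1) = 1 := by
    have h3 : ζ * ζ ^ (ℓ - 1) = ζ * 1 := by
      rw [← pow_succ', Nat.sub_add_cancel hℓ.pos, mul_one, ← h1]
    exact mul_left_cancel₀ hζ0 h3
  obtain ⟨t, ht⟩ := hζ.dvd_of_pow_eq_one _ h2
  refine ⟨t, ?_⟩
  have := hℓ.pos
  omega

end Fermat.Agent.S41.E
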