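import Fermat.Agent.LP.Gal.Conj
import Fermat.Agent.S41.E.Arith

/-!
# S41-E, file `Kummer`: `θ = q^(1/p)` does not lie in a cyclotomic field
-/

set_option autoImplicit false

namespace Fermat.Agent.S41.E

open Fermat.Agent.GR.H (GQ)

local notation "Qbar" => AlgebraicClosure ℚ

/-- `g ζ` is a power of `ζ` (`IsPrimitiveRoot.eq_pow_of_pow_eq_one`). -/
theorem exists_pow_eq {n : ℕ} (hn : 0 < n) {ζ : Qbar} (hζ : IsPrimitiveRoot ζ n) (g : GQ) :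
    ∃ e : ℕ, g ζ = ζ ^ e := by
  have : NeZero n := ⟨hn.ne'⟩
  have h1 : (g ζ) ^ n = 1 := by rw [← map_pow, hζ.pow_eq_one, map_one]
  obtain ⟨i, -, hi⟩ := hζ.eq_pow_of_pow_eq_one h1
  exact ⟨i, hi.symm⟩

/-- commutators fix roots of unity -/
theorem commutator_fix {n : ℕ} (hn : 0 < n) {ζ : Qbar} (hζ : IsPrimitiveRoot ζ n) (g h : GQ) :
    (g * h * g⁻¹ * h⁻¹) ζ = ζ := by
  obtain ⟨a, ha⟩ := exists_pow_eq hn hζ g
  obtain ⟨b, hb⟩ := exists_pow_eq hn hζ h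
  obtain ⟨e, he⟩ := exists_pow_eq hn hζ (g⁻¹ * h⁻¹)
  have hcomm : g (h ζ) = h (g ζ) := by
    rw [ha, hb, map_pow, map_pow, ha, hb, ← pow_mul, ← pow_mul, mul_comm]
  have h1 : (g * h * g⁻¹ * h⁻¹) ζ = g (h ((g⁻¹ * h⁻¹) ζ)) := by
    simp only [AlgEquiv.mul_apply]
  have h2 : h (g ((g⁻¹ * h⁻¹) ζ)) = ζ := by
    have : h (g ((g⁻¹ * h⁻¹) ζ)) = (h * g * (g⁻¹ * h⁻¹)) ζ := by
      simp only [AlgEquiv.mul_apply]
    rw [this]
    have h3 : h * g * (g⁻¹ * h⁻¹) = 1 := by group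
    rw [h3, AlgEquiv.one_apply]
  rw [h1, he, map_pow, map_pow, hcomm, ← map_pow, ← map_pow, ← he, h2]

theorem Kummer_minpoly {p q : ℕ} (hp : p.Prime) (hq : q.Prime) {θ : Qbar} (hθ : θ ^ p = q) :
    minpoly ℚ θ = Polynomial.X ^ p - Polynomial.C (q : ℚ) := by
  have hirr : Irreducible (Polynomial.X ^ p - Polynomial.C (q : ℚ)) :=
    X_pow_sub_C_irreducible_of_prime hp (fun b => rat_pow_ne_prime hp hq b)
  refine (minpoly.eq_of_irreducible_of_monic hirr ?_ (Polynomial.monic_X_pow_sub_C _ hp.ne_zero)).symm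
  rw [map_sub, map_pow, Polynomial.aeval_X, Polynomial.aeval_C, hθ, map_natCast, sub_self]

/-- all roots of `X^p - q` are conjugate (`X_pow_sub_C_irreducible_of_prime`, `rat_pow_ne_prime`, `minpoly.eq_of_irreducible_of_monic`,
`IsConjRoot`, `isConjRoot_iff_exists_algEquiv`). -/
theorem exists_map_root {p q : ℕ} (hp : p.Prime) (hq : q.Prime) {θ θ' : Qbar} (hθ : θ ^ p = q)
    (hθ' : θ' ^ p = q) : ∃ g : GQ, g θ = θ' := by
  have h : IsConjRoot ℚ θ' θ := by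
    rw [IsConjRoot, Kummer_minpoly hp hq hθ, Kummer_minpoly hp hq hθ']
  have hnorm : Normal ℚ Qbar :=
    @IsAlgClosure.normal ℚ (AlgebraicClosure ℚ) _ _ (AlgebraicClosure.instAlgebra ℚ) _
  exact isConjRoot_iff_exists_algEquiv.1 h

theorem Kummer_ne_zero {p q : ℕ} (hq : q.Prime) {θ : Qbar} (hθ : θ ^ p = q) : θ ≠ 0 := by
  intro h
  have hq0 : ((q : ℕ) : Qbar) ≠ 0 := Nat.cast_ne_zero.2 hq.ne_zero
  apply hq0
  rw [← hθ, h]
  rcases Nat.eq_zero_or_pos p with rfl | hp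
  · exfalso
    rw [pow_zero] at hθ
    have : (q : Qbar) = ((1 : ℕ) : Qbar) := by rw [← hθ, Nat.cast_one]
    exact hq.one_lt.ne' (Nat.cast_injective this)
  · exact zero_pow hp.ne'

/-- two roots of `X^p - q` differ by a power of `η`. -/
theorem Kummer_root_eq {p q : ℕ} (hp : p.Prime) (hq : q.Prime) {η θ θ' : Qbar}
    (hη : IsPrimitiveRoot η p) (hθ : θ ^ p = q) (hθ' : θ' ^ p = q) :
    ∃ i : ℕ, θ' = η ^ i * θ := by
  have : NeZero p := ⟨hp.ne_zero⟩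
  have h0 := Kummer_ne_zero hq hθ
  have h1 : (θ' / θ) ^ p = 1 := by
    rw [div_pow, hθ, hθ']
    exact div_self (Nat.cast_ne_zero.2 hq.ne_zero)
  obtain ⟨i, -, hi⟩ := hη.eq_pow_of_pow_eq_one h1
  exact ⟨i, by rw [hi, div_mul_cancel₀ _ h0]⟩

theorem Kummer_map_root {p q : ℕ} {θ : Qbar} (hθ : θ ^ p = q) (g : GQ) : (g θ) ^ p = q := by
  rw [← map_pow, hθ, map_natCast]

/-- PROOF. `c` a complex conjugation (`LP.Gal.exists_complexConj`), `η` a primitive `p`-th root of unity, `c θ = η^b θ` for some `b`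
(`(c θ / θ)^p = 1`); `θ' = η^x θ` with `2 x ≡ b mod p` is fixed by `c`. -/
theorem exists_root_fixed {p q : ℕ} (hp : p.Prime) (hp2 : p ≠ 2) (hq : q.Prime) (c : GQ)
    (hc : ∀ (m : ℕ) (ζ : Qbar), 0 < m → ζ ^ m = 1 → c ζ = ζ⁻¹) :
    ∃ θ' : Qbar, θ' ^ p = q ∧ c θ' = θ' := by
  have : NeZero p := ⟨hp.ne_zero⟩
  have : NeZero ((p : ℕ) : ℚ) := ⟨Nat.cast_ne_zero.2 hp.ne_zero⟩
  obtain ⟨η, hη⟩ := HasEnoughRootsOfUnity.exists_primitiveRoot Qbar p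
  obtain ⟨θ, hθ⟩ := IsAlgClosed.exists_pow_nat_eq ((q : ℕ) : Qbar) hp.pos
  obtain ⟨b, hb⟩ := Kummer_root_eq hp hq hη hθ (Kummer_map_root hθ c)
  have hη0 : η ≠ 0 := hη.ne_zero hp.ne_zero
  have hcη : c η = η⁻¹ := hc p η hp.pos hη.pow_eq_one
  -- choose `x` with `η ^ (2 x) = η ^ b`
  have hx : ∃ x : ℕ, η ^ (2 * x) = η ^ b := by
    rcases Nat.even_or_odd' b with ⟨k, hk | hk⟩
    · exact ⟨k, by rw [hk]⟩
    · obtain ⟨l, hl⟩ := hp.odd_of_ne_two hp2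
      refine ⟨k + l + 1, ?_⟩
      have : 2 * (k + l + 1) = b + p := by omega
      rw [this, pow_add, hη.pow_eq_one, mul_one]
  obtain ⟨x, hx⟩ := hx
  refine ⟨η ^ x * θ, ?_, ?_⟩
  · rw [mul_pow, hθ, ← pow_mul, mul_comm x p, pow_mul, hη.pow_eq_one, one_pow, one_mul]
  · rw [map_mul, map_pow, hcη, hb, ← hx, two_mul, pow_add, inv_pow, ← mul_assoc, ← mul_assoc,
      inv_mul_cancel₀ (pow_ne_zero x hη0), one_mul]

/-- **`θ ∉ ℚ(ζ_n)`.**  PROOF. Suppose every `g` fixing `ζ` fixes `θ`; then it fixes every root of `X^p - q` (they are `η^i θ`, `η = ζ^(n/p)`).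
So `g h` and `h g` agree on the roots (`commutator_fix`).  Take `c`, `θ'` from `exists_root_fixed` and `g` with `g θ' = η θ'` (`exists_map_root`):
`c (g θ') = η⁻¹ θ'`, `g (c θ') = η θ'`, so `η² = 1`, impossible for `p` odd. -/
theorem exists_moving {p q n : ℕ} (hp : p.Prime) (hp2 : p ≠ 2) (hq : q.Prime) (hn : 0 < n) (hpn : p ∣ n)
    {ζ θ : Qbar} (hζ : IsPrimitiveRoot ζ n) (hθ : θ ^ p = q) :
    ∃ g : GQ, g ζ = ζ ∧ g θ ≠ θ := by
  by_contra hcon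
  have hfix : ∀ g : GQ, g ζ = ζ → g θ = θ := by
    intro g hg
    by_contra h
    exact hcon ⟨g, hg, h⟩
  have hη : IsPrimitiveRoot (ζ ^ (n / p)) p := hζ.pow hn (Nat.div_mul_cancel hpn).symm
  set η : Qbar := ζ ^ (n / p) with hηdef
  have hη0 : η ≠ 0 := hη.ne_zero hp.ne_zero
  -- every `g` fixing `ζ` fixes all the roots
  have hfix' : ∀ g : GQ, g ζ = ζ → ∀ θ₁ : Qbar, θ₁ ^ p = q → g θ₁ = θ₁ := by
    intro g hg θ₁ h₁
    obtain ⟨i, hi⟩ := Kummer_root_eq hp hq hη hθ h₁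
    rw [hi, map_mul, map_pow, hηdef, map_pow, hg, hfix g hg]
  obtain ⟨c, -, hc⟩ := Fermat.Agent.LP.Gal.exists_complexConj
  obtain ⟨θ', hθ', hcθ'⟩ := exists_root_fixed hp hp2 hq c hc
  have hθ'0 := Kummer_ne_zero hq hθ'
  have hroot : (η * θ') ^ p = q := by rw [mul_pow, hη.pow_eq_one, one_mul, hθ']
  obtain ⟨g, hg⟩ := exists_map_root hp hq hθ' hroot
  have hk := hfix' (c * g * c⁻¹ * g⁻¹) (commutator_fix hn hζ c g) (η * θ') hroot
  have h1 : (c * g * c⁻¹ * g⁻¹) (η * θ') = c (g θ') := by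
    have h2 : g⁻¹ (η * θ') = θ' := by
      rw [← hg]
      exact AlgEquiv.symm_apply_apply g θ'
    have h3 : c⁻¹ θ' = θ' := by
      conv_lhs => rw [← hcθ']
      exact AlgEquiv.symm_apply_apply c θ'
    simp only [AlgEquiv.mul_apply]
    rw [h2, h3]
  rw [h1, hg, map_mul, hcθ', hc p η hp.pos hη.pow_eq_one] at hk
  have h4 : η⁻¹ = η := mul_right_cancel₀ hθ'0 hk
  have h5 : η ^ 2 = 1 := by
    rw [pow_two]
    nth_rewrite 1 [← h4]
    exact inv_mul_cancel₀ hη0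
  have h6 : p ∣ 2 := (hη.pow_eq_one_iff_dvd 2).1 h5
  exact hp2 ((Nat.prime_dvd_prime_iff_eq hp Nat.prime_two).1 h6)

/-- PROOF. `g θ = u θ`, `u^p = 1`, `u` is a power of `ζ` so `g u = u`; `g (g θ) = u² θ`; `u² = 1 = u^p` gives `u = 1`. -/
theorem sq_moving {p q n : ℕ} (hp : p.Prime) (hp2 : p ≠ 2) (hq : q.Prime) (hn : 0 < n) (hpn : p ∣ n)
    {ζ θ : Qbar} (hζ : IsPrimitiveRoot ζ n) (hθ : θ ^ p = q) (g : GQ) (hg : g ζ = ζ) (hgθ : g θ ≠ θ) :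
    g (g θ) ≠ θ := by
  intro hcon
  have hη : IsPrimitiveRoot (ζ ^ (n / p)) p := hζ.pow hn (Nat.div_mul_cancel hpn).symm
  have hθ0 := Kummer_ne_zero hq hθ
  obtain ⟨i, hi⟩ := Kummer_root_eq hp hq hη hθ (Kummer_map_root hθ g)
  set u : Qbar := (ζ ^ (n / p)) ^ i with hu
  have hgu : g u = u := by rw [hu, map_pow, map_pow, hg]
  have hup : u ^ p = 1 := by rw [hu, ← pow_mul, mul_comm, pow_mul, hη.pow_eq_one, one_pow]
  have hu2 : u ^ 2 = 1 := by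
    rw [hi, map_mul, hgu, hi, ← mul_assoc] at hcon
    have : u * u * θ = 1 * θ := by rw [hcon, one_mul]
    rw [pow_two]
    exact mul_right_cancel₀ hθ0 this
  obtain ⟨l, hl⟩ := hp.odd_of_ne_two hp2
  have hu1 : u = 1 := by
    rw [hl, pow_add, pow_mul, hu2, one_pow, one_mul, pow_one] at hup
    exact hup
  apply hgθ
  rw [hi, hu1, one_mul]

end Fermat.Agent.S41.E
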