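import Fermat.Agent.LP.Gal.DensityB
import Fermat.Agent.S41.E.Abs
import Fermat.Agent.S41.E.Kummer
import Fermat.Agent.S41.E.Frob

/-!
# S41-E, file `Core`: the abstract form of Theorem E
-/

set_option autoImplicit false

namespace Fermat.Agent.S41.E

open Fermat.Agent.GR.H (GQ FrobeniusDensity)
open Fermat.Agent.LP.Gal

local notation "Qbar" => AlgebraicClosure ℚ

variable {p : ℕ} [Fact p.Prime] {V : Type*} [AddCommGroup V] [Module (ZMod p) V]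

/-- density on the level of `ρ` together with two extra elements -/
theorem exists_frob_pow₂ (dens : FrobeniusDensity) (ρ : GQ →* Module.End (ZMod p) V)
    (hρ : HasLevel ρ) (S : Finset ℕ) (ζ θ : Qbar) (g : GQ) :
    ∃ (ℓ : ℕ) (A : ValuationSubring Qbar) (τ : GQ) (k j : ℕ),
      ℓ.Prime ∧ ℓ ∉ S ∧ A.LiesOverPrime ℓ ∧ A.IsFrobeniusAt τ ℓ ∧
        ρ g = ρ τ ^ k ∧ (τ ^ k) θ = g θ ∧ (g ^ j) ζ = τ ζ := by
  obtain ⟨L1, hL1fin, hL1⟩ := hρ
  have hint : ∀ x : Qbar, IsIntegral ℚ x := fun x =>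
    (AlgebraicClosure.isAlgebraic ℚ).isIntegral.isIntegral x
  have hL2fin : FiniteDimensional ℚ (IntermediateField.adjoin ℚ {ζ}) :=
    IntermediateField.adjoin.finiteDimensional (hint ζ)
  have hL3fin : FiniteDimensional ℚ (IntermediateField.adjoin ℚ {θ}) :=
    IntermediateField.adjoin.finiteDimensional (hint θ)
  have hL12 : FiniteDimensional ℚ
      (L1 ⊔ IntermediateField.adjoin ℚ {ζ} : IntermediateField ℚ Qbar) :=
    IntermediateField.finiteDimensional_sup _ _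
  have hLfin : FiniteDimensional ℚ
      ((L1 ⊔ IntermediateField.adjoin ℚ {ζ}) ⊔ IntermediateField.adjoin ℚ {θ} :
        IntermediateField ℚ Qbar) :=
    IntermediateField.finiteDimensional_sup _ _
  obtain ⟨ℓ, A, τ, h1, h2, h3, h4, ⟨k, hk⟩, ⟨j, hj⟩⟩ :=
    dens ((L1 ⊔ IntermediateField.adjoin ℚ {ζ}) ⊔ IntermediateField.adjoin ℚ {θ}) hLfin S g
  have hle1 : L1 ≤ (L1 ⊔ IntermediateField.adjoin ℚ {ζ}) ⊔ IntermediateField.adjoin ℚ {θ} :=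
    le_sup_left.trans le_sup_left
  have hζmem : ζ ∈ ((L1 ⊔ IntermediateField.adjoin ℚ {ζ}) ⊔ IntermediateField.adjoin ℚ {θ} :
      IntermediateField ℚ Qbar) :=
    ((le_sup_right : IntermediateField.adjoin ℚ {ζ} ≤ L1 ⊔ IntermediateField.adjoin ℚ {ζ}).trans
      le_sup_left) (IntermediateField.mem_adjoin_simple_self ℚ ζ)
  have hθmem : θ ∈ ((L1 ⊔ IntermediateField.adjoin ℚ {ζ}) ⊔ IntermediateField.adjoin ℚ {θ} :
      IntermediateField ℚ Qbar) :=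
    (le_sup_right : IntermediateField.adjoin ℚ {θ} ≤ _) (IntermediateField.mem_adjoin_simple_self ℚ θ)
  refine ⟨ℓ, A, τ, k, j, h1, h2, h3, h4, ?_, hk θ hθmem, hj ζ hζmem⟩
  rw [← map_pow]
  exact DensityA_eq_of_agree ρ L1 hL1 fun x hx => (hk x (hle1 hx)).symm

theorem Core_pow_fix (g : GQ) {x : Qbar} (h : g x = x) (n : ℕ) : (g ^ n) x = x := by
  induction n with
  | zero => simp
  | succ n ih => rw [pow_succ, AlgEquiv.mul_apply, h, ih]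

/-- the unipotence of the elements of `H₁ \ H₂` -/
theorem unipotent_of_forall (dens : FrobeniusDensity) (ρ : GQ →* Module.End (ZMod p) V)
    (hρ : HasLevel ρ) (S : Finset ℕ) (hpS : p ∈ S) (a : ℕ → ZMod p) (hF : FrobRel S a ρ)
    {q : ℕ} (hq : q.Prime) (c₀ m : ℕ) (hc₀ : 0 < c₀) (hm : 0 < m)
    (hall : ∀ ℓ : ℕ, ℓ.Prime → ℓ ∉ S → ((ℓ : ℕ) : ZMod c₀) = 1 →
      p ∣ orderOf ((q : ZMod ℓ) ^ (2 * m)) → a ℓ = 2)
    {ζ θ : Qbar} (hζ : IsPrimitiveRoot ζ (c₀ * (2 * m * p))) (hθ : θ ^ p = q)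
    (g : GQ) (hg : g ζ = ζ) (hgθ : g θ ≠ θ) : (ρ g - 1) * (ρ g - 1) = 0 := by
  have hp : p.Prime := Fact.out
  obtain ⟨ℓ, A, τ, k, j, hℓ, hℓS, hA, hτ, hρg, hkθ, hjζ⟩ :=
    exists_frob_pow₂ dens ρ hρ (S ∪ insert q (c₀ * (2 * m * p)).primeFactors) ζ θ g
  rw [Finset.mem_union, Finset.mem_insert, not_or, not_or] at hℓS
  obtain ⟨hℓS, hℓq, hℓn⟩ := hℓS
  have hn0 : c₀ * (2 * m * p) ≠ 0 := by
    have := hp.pos
    positivity
  have hℓn' : ¬ ℓ ∣ c₀ * (2 * m * p) := fun h => hℓn (Nat.mem_primeFactors.2 ⟨hℓ, h, hn0⟩)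
  have hℓq' : ¬ ℓ ∣ q := fun h => hℓq ((Nat.prime_dvd_prime_iff_eq hℓ hq).1 h)
  have hℓp : ℓ ≠ p := fun h => hℓS (h ▸ hpS)
  have hτζ : τ ζ = ζ := by rw [← hjζ, Core_pow_fix g hg]
  obtain ⟨t, ht⟩ := frob_fix_zeta A hℓ hA τ hτ hℓn' hζ hτζ
  have hτθ : τ θ ≠ θ := fun h => hgθ (by rw [← hkθ, Core_pow_fix τ h])
  have h1 : (q : ZMod ℓ) ^ (2 * m * (c₀ * t)) ≠ 1 := by
    intro h
    refine hτθ (frob_fix_root A hℓ hA τ hτ hp hℓp hℓq' hθ (t := 2 * m * (c₀ * t)) ?_ h)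
    rw [ht]
    ring
  have h2 : p ∣ orderOf ((q : ZMod ℓ) ^ (2 * m)) :=
    dvd_orderOf_of_pow_ne_one hp hℓ hℓq' (t := c₀ * t) (by rw [ht]; ring) h1
  have h3 : ((ℓ : ℕ) : ZMod c₀) = 1 := by
    rw [ht]
    push_cast
    simp
  have h4 : ((ℓ : ℕ) : ZMod p) = 1 := by
    rw [ht]
    push_cast
    simp
  have h5 := hF ℓ hℓ hℓS A hA τ hτ
  rw [hall ℓ hℓ hℓS h3 h2, h4] at h5
  rw [hρg]
  refine pow_unipotent _ ?_ k
  rw [← h5, two_smul, one_smul]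
  noncomm_ring

/-- **Theorem E**, abstract form. -/
theorem core (dens : FrobeniusDensity) (hp2 : p ≠ 2) (hV : Module.finrank (ZMod p) V = 2)
    (ρ : GQ →* Module.End (ZMod p) V) (hirr : Irr ρ) (hρ : HasLevel ρ) (S : Finset ℕ)
    (hpS : p ∈ S) (a : ℕ → ZMod p) (hF : FrobRel S a ρ) {q : ℕ} (hq : q.Prime)
    (c₀ m : ℕ) (hc₀ : 0 < c₀) (hm : 0 < m) :
    ∃ ℓ : ℕ, ℓ.Prime ∧ ℓ ∉ S ∧ ((ℓ : ℕ) : ZMod c₀) = 1 ∧
      p ∣ orderOf ((q : ZMod ℓ) ^ (2 * m)) ∧ a ℓ ≠ 2 := by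
  have hp : p.Prime := Fact.out
  have hfin : Module.Finite (ZMod p) V := Module.finite_of_finrank_pos (by omega)
  by_contra hcon
  have hall : ∀ ℓ : ℕ, ℓ.Prime → ℓ ∉ S → ((ℓ : ℕ) : ZMod c₀) = 1 →
      p ∣ orderOf ((q : ZMod ℓ) ^ (2 * m)) → a ℓ = 2 := by
    intro ℓ h1 h2 h3 h4
    by_contra h5
    exact hcon ⟨ℓ, h1, h2, h3, h4, h5⟩
  set n : ℕ := c₀ * (2 * m * p) with hn
  have hn0 : 0 < n := by
    have := hp.pos
    positivity
  have hpn : p ∣ n := ⟨c₀ * (2 * m), by rw [hn]; ring⟩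
  have : NeZero n := ⟨hn0.ne'⟩
  obtain ⟨ζ, hζ⟩ := HasEnoughRootsOfUnity.exists_primitiveRoot Qbar n
  obtain ⟨θ, hθ⟩ := IsAlgClosed.exists_pow_nat_eq (q : Qbar) hp.pos
  -- the two subgroups
  let H : Subgroup GQ := MulAction.stabilizer GQ ζ
  let T : Subgroup GQ := MulAction.stabilizer GQ θ
  have hHmem : ∀ g : GQ, g ∈ H ↔ g ζ = ζ := fun g => MulAction.mem_stabilizer_iff
  have hTmem : ∀ g : GQ, g ∈ T ↔ g θ = θ := fun g => MulAction.mem_stabilizer_iff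
  have hHn : H.Normal := by
    refine ⟨fun h hh g => ?_⟩
    have h1 : g * h * g⁻¹ = (g * h * g⁻¹ * h⁻¹) * h := by group
    rw [h1]
    exact H.mul_mem ((hHmem _).2 (commutator_fix hn0 hζ g h)) hh
  obtain ⟨g₀, hg₀, hg₀θ⟩ := exists_moving hp hp2 hq hn0 hpn hζ hθ
  have htriv : ∀ h ∈ H, ρ h = 1 := by
    refine abs_trivial hV ρ hirr H T hHn g₀ ((hHmem _).2 hg₀) (fun h => hg₀θ ((hTmem _).1 h)) ?_ ?_
    · intro g hg hgT h
      refine sq_moving hp hp2 hq hn0 hpn hζ hθ g ((hHmem _).1 hg) (fun h' => hgT ((hTmem _).2 h')) ?_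
      have := (hTmem _).1 h
      rwa [AlgEquiv.mul_apply] at this
    · intro g hg hgT
      exact unipotent_of_forall dens ρ hρ S hpS a hF hq c₀ m hc₀ hm hall hζ hθ g ((hHmem _).1 hg)
        (fun h' => hgT ((hTmem _).2 h'))
  -- complex conjugation
  obtain ⟨c, hc2, hc⟩ := exists_complexConj
  have hcc : ρ c * ρ c = 1 := by rw [← map_mul, hc2, map_one]
  have hcomm : ∀ g, ρ c * ρ g = ρ g * ρ c := by
    intro g
    have h1 : c * g = (c * g * c⁻¹ * g⁻¹) * (g * c) := by group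
    rw [← map_mul, ← map_mul, h1, map_mul, htriv _ ((hHmem _).2 (commutator_fix hn0 hζ c g)), one_mul]
  -- the determinant
  obtain ⟨d, hd⟩ := hpn
  have hη : IsPrimitiveRoot (ζ ^ d) p := hζ.pow hn0 (by rw [hd]; ring)
  have hcη : c (ζ ^ d) = (ζ ^ d) ^ (p - 1) := by
    rw [hc p _ hp.pos hη.pow_eq_one]
    refine inv_eq_of_mul_eq_one_left ?_
    rw [← pow_succ, Nat.sub_add_cancel hp.pos, hη.pow_eq_one]
  have hdet := det_eq_cyclotomic dens hV ρ hirr hρ S hpS a hF (ζ ^ d) hη c (p - 1) hcη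
  have hdet1 : LinearMap.det (ρ c) = 1 := by
    rcases abs_scalar ρ hirr c hcc hcomm with h | h
    · rw [h, map_one]
    · have h' : ρ c = (-1 : ZMod p) • (1 : Module.End (ZMod p) V) := by rw [h]; simp
      rw [h', det_smul_one_plane hV]
      norm_num
  rw [hdet1, Nat.cast_sub hp.pos] at hdet
  simp only [CharP.cast_eq_zero, Nat.cast_one, zero_sub] at hdet
  have h2 : (2 : ZMod p) = 0 := by linear_combination hdet
  have h3 : ((2 : ℕ) : ZMod p) = 0 := by exact_mod_cast h2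
  rw [ZMod.natCast_eq_zero_iff] at h3
  exact hp2 ((Nat.prime_dvd_prime_iff_eq hp Nat.prime_two).1 h3)

end Fermat.Agent.S41.E
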