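import Fermat.Statements.S41
import Fermat.Agent.S41.E.Core
import Fermat.Agent.LP.Gal.ECRepA
import Fermat.Agent.LP.Gal.ECRepC

/-!
# S41-E, file `MainOf`: Theorem E for elliptic curves, from the exports of EL and LP-GAL (as hypotheses)
-/

set_option autoImplicit false

open WeierstrassCurve WeierstrassCurve.Affine WeierstrassCurve.Affine.Point

namespace Fermat.Agent.S41.E

open Fermat.Agent.GR.H (GQ FrobeniusDensity)
open Fermat.Agent.LP.Gal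

theorem MainOf_Δ_ne_zero (E : WeierstrassCurve ℚ) [E.IsElliptic] {W : WeierstrassCurve ℤ}
    (hW : W.IsIntegralModelOf E) : W.Δ ≠ 0 := by
  obtain ⟨C, hC⟩ := hW
  intro h
  have h1 : (W.map (Int.castRingHom ℚ)).Δ = 0 := by
    rw [WeierstrassCurve.map_Δ, h, _root_.map_zero]
  rw [← hC, WeierstrassCurve.variableChange_Δ] at h1
  have h2 : E.Δ ≠ 0 := E.isUnit_Δ.ne_zero
  have h3 : ((C.u⁻¹ : ℚˣ) : ℚ) ^ 12 ≠ 0 := pow_ne_zero _ (Units.ne_zero _)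
  exact (mul_ne_zero h3 h2) h1

theorem MainOf_frobRel_mono {p : ℕ} {M : Type*} [AddCommGroup M] [Module (ZMod p) M] {S S' : Finset ℕ}
    (h : S ⊆ S') {a : ℕ → ZMod p} {r : GQ →* Module.End (ZMod p) M} (hF : FrobRel S a r) :
    FrobRel S' a r :=
  fun ℓ hℓ hS' A hA τ hτ => hF ℓ hℓ (fun hS => hS' (h hS)) A hA τ hτ

theorem exists_prime_ap_ne_two_of (dens : FrobeniusDensity) (h1 : X1) (h3 : X3) (h4 : X4)
    (hlev : ∀ (E' : WeierstrassCurve ℚ) (p' : ℕ) [Fact p'.Prime], Finite (Tor E' p') →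
      HasLevel (rhoE E' p'))
    (E : WeierstrassCurve ℚ) [E.IsElliptic] {W : WeierstrassCurve ℤ}
    (hW : W.IsIntegralModelOf E) {p q : ℕ} (hp : p.Prime) (hp2 : p ≠ 2) (hq : q.Prime) (hqp : q ≠ p)
    (hirr : GaloisRepIsIrreducible (K := AlgebraicClosure ℚ) ℚ E p) (c₀ m : ℕ) (hc₀ : 0 < c₀)
    (hm : 0 < m) (Sg : Finset ℕ) :
    ∃ ℓ : ℕ, ℓ.Prime ∧ ℓ ∉ Sg ∧ W.IsGoodPrimeFor ℓ ∧ ((ℓ : ℕ) : ZMod c₀) = 1 ∧
      p ∣ orderOf ((q : ZMod ℓ) ^ (2 * m)) ∧ ((W.apOfModel ℓ : ℤ) : ZMod p) ≠ 2 := by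
  have : Fact p.Prime := ⟨hp⟩
  have hΔ := MainOf_Δ_ne_zero E hW
  obtain ⟨C, hC⟩ := hW
  have hirr' : GaloisRepIsIrreducible (K := AlgebraicClosure ℚ) ℚ (toQ W) p :=
    irr_of_variableChange h4 E (toQ W) C hC hirr
  have hfin : Finite (Tor (toQ W) p) := ECRepA_finite h1 W hΔ
  obtain ⟨ℓ, hℓ, hℓS, hc, hord, ha⟩ := core dens hp2 (finrank_tor h1 W hΔ) (rhoE (toQ W) p)
    (irr_rhoE _ hirr') (hlev _ p hfin) (badSet W p ∪ Sg)
    (Finset.mem_union_left _ (mem_badSet_self W p)) (fun ℓ => (W.apOfModel ℓ : ZMod p))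
    (MainOf_frobRel_mono Finset.subset_union_left (frobRel_rhoE h3 W hΔ)) hq c₀ m hc₀ hm
  rw [Finset.mem_union, not_or] at hℓS
  exact ⟨ℓ, hℓ, hℓS.2, (not_mem_badSet hΔ hℓ hℓS.1).2.2, hc, hord, ha⟩

end Fermat.Agent.S41.E
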